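import Fermat.Agent.S44.Top.Card

/-!
# S44 / TOP-ID-MIRROR : a Frobenius at `ℓ` fixing a nonzero point of `E[p]` ⟹ `p ∣ #W(𝔽_ℓ)`      key `S44/TOP-ID-MIRROR` (~150 lines)

Mirror of `S41.Eis.exists_fixed_point` (same tools: `S41/Eis/Red.lean`, `RedB.lean`, `Lib/DivPoly.lean`).
`P = (x, y) ≠ 0`, `p • P = 0`, `p = 2 b + 1`: `DivPoly.odd_nsmul_eq_zero_iff`: `half(x) = 0`; `root_mem`: `x ∈ A`; `redb_mem_of_quadratic`: `y ∈ A`.
`σ • P = P` gives `σ x = x`, `σ y = y`; `redb_residue_map`: `(res x)^ℓ = res x`, `(res y)^ℓ = res y`; in a field of characteristic `ℓ` the roots of `X^ℓ - X` are the `ℓ` elements of the prime field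
(`φ = ZMod.castHom : ZMod ℓ →+* ResidueField A` injective, `ZMod.pow_card`, `card_roots ≤ ℓ`): `res x = φ x₀`, `res y = φ y₀`.
`(x₀, y₀)` satisfies the equation of `W mod ℓ` (`redb_equation_iff`, injectivity of `φ`), it is nonsingular (`Δ ≠ 0` in `ZMod ℓ` by `hgood`), `half(x₀) = 0` in `ZMod ℓ` (`redb_eval_half` / `red_aeval_half`, injectivity),
so `P̄ = (x₀, y₀) ≠ 0` has `p • P̄ = 0`: `addOrderOf P̄ = p ∣ Nat.card` (`addOrderOf_dvd_natCard`); `apOfModel ℓ - (ℓ + 1) = - Nat.card` as in `redb_exists_point`.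
-/

set_option autoImplicit false

open Polynomial WeierstrassCurve WeierstrassCurve.Affine WeierstrassCurve.Affine.Point IsLocalRing

namespace Fermat.Agent.S44.Top.Id

local notation "Qbar" => AlgebraicClosure ℚ
local notation "GQ" => (AlgebraicClosure ℚ ≃ₐ[ℚ] AlgebraicClosure ℚ)

/-- [S44/TOP-ID-MIRROR] -/
theorem dvd_of_fixed_point (W : WeierstrassCurve ℤ) {b l : ℕ} (hb : (2 * b + 1).Prime)
    (hl : l.Prime) (hlp : l ≠ 2 * b + 1) (A : ValuationSubring Qbar) (hA : A.LiesOverPrime l)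
    (hgood : W.IsGoodPrimeFor l) (σ : GQ) (hσ : A.IsFrobeniusAt σ l)
    (P : Submodule.torsionBy ℤ ((W.map (Int.castRingHom ℚ)).toAffine⁄Qbar).Point (2 * b + 1 : ℕ))
    (hP0 : P ≠ 0) (hP : σ • P = P) :
    ((2 * b + 1 : ℕ) : ℤ) ∣ W.apOfModel l - (l + 1) :=
  Fermat.Agent.S44.Top.dvd_of_fixed_point W hb hl hlp A hA hgood σ hσ P hP0 hP

end Fermat.Agent.S44.Top.Id
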