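import Fermat.Agent.S44.Top.Id.Grp
import Fermat.Agent.S44.Top.Id.Mirror
import Fermat.Agent.S41.Eis.Two

/-!
# S44 / TOP-ID : (EV) `ρ_f(σ)` has a nonzero fixed vector iff `σ` has a nonzero fixed point in `W[p]`      (helper25)

Chebotarev (`Cheb.exists_frobenius_eq`) on the product representation; for a Frobenius `τ` at `ℓ`:
`det(1 - ρ_f(τ)) = 1 - a_ℓ + ℓ = #W(𝔽_ℓ)` in `k`.
-/

set_option autoImplicit false

open Polynomial WeierstrassCurve WeierstrassCurve.Affine WeierstrassCurve.Affine.Point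

namespace Fermat.Agent.S44.Top.Id

local notation "Qbar" => AlgebraicClosure ℚ
local notation "GQ" => (AlgebraicClosure ℚ ≃ₐ[ℚ] AlgebraicClosure ℚ)

theorem hasFix_iff_isRoot {k V Γ : Type*} [Field k] [AddCommGroup V] [Module k V]
    [Module.Finite k V] [Group Γ] (ρ : Γ →* Module.End k V) (g : Γ) :
    HasFix ρ g ↔ (LinearMap.charpoly (ρ g)).IsRoot 1 := by
  rw [← Module.End.hasEigenvalue_iff_isRoot_charpoly]
  constructor
  · rintro ⟨v, hv0, hv⟩
    apply Module.End.hasEigenvalue_of_hasEigenvector (x := v)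
    exact ⟨Module.End.mem_eigenspace_iff.mpr (by rw [hv, one_smul]), hv0⟩
  · intro h
    obtain ⟨v, hv⟩ := h.exists_hasEigenvector
    exact ⟨v, hv.2, by rw [Module.End.mem_eigenspace_iff.mp hv.1, one_smul]⟩

theorem hasFix_congr {k V Γ : Type*} [Field k] [AddCommGroup V] [Module k V] [Group Γ]
    (ρ : Γ →* Module.End k V) {g h : Γ} (e : ρ g = ρ h) : HasFix ρ g ↔ HasFix ρ h := by
  unfold HasFix
  rw [e]

theorem finiteLevel_prod {M M' : Type} [Monoid M] [Monoid M'] (r : GQ →* M) (r' : GQ →* M')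
    (h : GaloisFactorsThroughFiniteLevel r) (h' : GaloisFactorsThroughFiniteLevel r') :
    GaloisFactorsThroughFiniteLevel (r.prod r') := by
  obtain ⟨L, hL, hr⟩ := h
  obtain ⟨L', hL', hr'⟩ := h'
  refine ⟨L ⊔ L', IntermediateField.finiteDimensional_sup L L', fun σ hσ => ?_⟩
  apply Prod.ext
  · exact hr σ fun x hx => hσ x ((le_sup_left : L ≤ L ⊔ L') hx)
  · exact hr' σ fun x hx => hσ x ((le_sup_right : L' ≤ L ⊔ L') hx)

/-- **(EV)** -/
theorem ev (W : WeierstrassCurve ℤ) (hΔ : W.Δ ≠ 0) {b : ℕ} [hF : Fact (2 * b + 1).Prime] {N : ℕ}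
    (hN : N ≠ 0) {f : CuspForm (CongruenceSubgroup.Gamma0 N) 2} {k : Type} [Field k]
    [CharP k (2 * b + 1)] (φ : integralClosure ℤ ℂ →+* k)
    (hcong : ∀ ℓ : ℕ, ℓ.Prime → W.IsGoodPrimeFor ℓ → ¬ ℓ ∣ N → ℓ ≠ 2 * b + 1 →
      ∃ a : integralClosure ℤ ℂ, (a : ℂ) = ModularFormClass.qCoeff f ℓ ∧
        φ a = ((W.apOfModel ℓ : ℤ) : k))
    (ρ : ResidualGaloisRep k) (hatt : ρ.IsAttachedTo f φ) (σ : GQ) :
    HasFix ρ.ρ σ ↔ HasFix (galoisRepModuleEnd (S := ℚ) (K := Qbar)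
      (W.map (Int.castRingHom ℚ)).toAffine (2 * b + 1)) σ := by
  classical
  have hb : (2 * b + 1).Prime := hF.out
  have hfin : GaloisFactorsThroughFiniteLevel
      (galoisRepModuleEnd (S := ℚ) (K := Qbar) (W.map (Int.castRingHom ℚ)).toAffine (2 * b + 1)) :=
    S42.torsion_finiteLevel (W.map (Int.castRingHom ℚ)).toAffine ⟨b, rfl⟩ hb.ne_zero
  obtain ⟨l, A, τ, hl, hlS, hA, hτ, hr⟩ := Cheb.exists_frobenius_eq _
    (finiteLevel_prod _ _ ρ.factorsThroughFiniteLevel hfin)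
    (N * (2 * b + 1) * W.Δ.natAbs).primeFactors σ
  have hr1 : ρ.ρ τ = ρ.ρ σ := congrArg Prod.fst hr
  have hr2 : galoisRepModuleEnd (S := ℚ) (K := Qbar) (W.map (Int.castRingHom ℚ)).toAffine
      (2 * b + 1) τ = galoisRepModuleEnd (S := ℚ) (K := Qbar)
      (W.map (Int.castRingHom ℚ)).toAffine (2 * b + 1) σ := congrArg Prod.snd hr
  rw [← hasFix_congr _ hr1, ← hasFix_congr _ hr2]
  have hne : N * (2 * b + 1) * W.Δ.natAbs ≠ 0 :=
    mul_ne_zero (mul_ne_zero hN hb.ne_zero) (Int.natAbs_ne_zero.mpr hΔ)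
  have hnd : ¬ l ∣ N * (2 * b + 1) * W.Δ.natAbs := fun h =>
    hlS (Nat.mem_primeFactors.mpr ⟨hl, h, hne⟩)
  have hlN : ¬ l ∣ N := fun h => hnd ((h.mul_right _).mul_right _)
  have hlp : l ≠ 2 * b + 1 := by
    rintro rfl
    exact hnd ((Dvd.intro_left _ rfl).mul_right _)
  have hgood : W.IsGoodPrimeFor l := by
    intro h
    exact hnd (Dvd.dvd.mul_left (Int.natCast_dvd.mp h) _)
  have hlk : (l : k) ≠ 0 := by
    intro h
    rw [CharP.cast_eq_zero_iff k (2 * b + 1), Nat.prime_dvd_prime_iff_eq hb hl] at h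
    exact hlp h.symm
  obtain ⟨a, ha, hchar⟩ := hatt l hl hlN hlk A hA τ hτ
  obtain ⟨a', ha', hφ⟩ := hcong l hl hgood hlN hlp
  have haa : a = a' := Subtype.ext (ha.trans ha'.symm)
  subst haa
  have key : HasFix ρ.ρ τ ↔ ((2 * b + 1 : ℕ) : ℤ) ∣ W.apOfModel l - (l + 1) := by
    rw [hasFix_iff_isRoot, hchar, hφ, ← CharP.intCast_eq_zero_iff k (2 * b + 1)]
    simp only [IsRoot.def, eval_add, eval_sub, eval_pow, eval_X, eval_mul, eval_C, one_pow,
      mul_one]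
    push_cast
    constructor
    · intro h
      linear_combination -h
    · intro h
      linear_combination -h
  rw [key]
  constructor
  · intro h
    obtain ⟨Q, hQ0, hQ⟩ := S41.Eis.exists_fixed_point W hb hl hlp A hA hgood h τ hτ
    exact ⟨Q, hQ0, hQ⟩
  · rintro ⟨Q, hQ0, hQ⟩
    exact dvd_of_fixed_point W hb hl hlp A hA hgood τ hτ Q hQ0 hQ

end Fermat.Agent.S44.Top.Id
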