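import Fermat.Agent.S44.Top.Id.NotE1

/-!
# S44 / TOP-ID : the reducible scenario is impossible for the Frey curve (inertia + Minkowski)      (helper25)
-/

set_option autoImplicit false

namespace Fermat.Agent.S44.Top.Id

open Fermat.Agent.S05 Fermat.Agent.S13 Fermat.Agent.DivPoly
open WeierstrassCurve WeierstrassCurve.Affine WeierstrassCurve.Affine.Point

local notation "Qb" => AlgebraicClosure ℚ
local notation "GQ" => (AlgebraicClosure ℚ ≃ₐ[ℚ] AlgebraicClosure ℚ)

/-- if every `σ` with a nonzero fixed point in `E[p]` acts trivially on `E[p]`, contradiction -/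
theorem frey_not_scenario (P : FreyPackage) (hpabc : (P.p : ℤ) ∣ P.a * P.b * P.c)
    (hsc : ∀ σ : GQ, (∃ g : (P.freyCurve⁄Qb).Point, g ≠ 0 ∧ P.p • g = 0 ∧ σ • g = g) →
      ∀ g : (P.freyCurve⁄Qb).Point, P.p • g = 0 → σ • g = g) : False := by
  have hp := P.pp
  have hpK : ((P.p : ℕ) : Qb) ≠ 0 := by exact_mod_cast P.hp0
  obtain ⟨hfin, -⟩ := torsionBy_finite (P.freyCurve⁄Qb) P.hp_odd hpK
  have hnt := torsionBy_nontrivial (P.freyCurve⁄Qb) (frey_Δ_ne_zero P) P.hp_odd
    (by have := P.hp5; omega) hpK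
  have hfinT : Finite (Tp P) := hfin
  have hTfin : (Tp P : Set (P.freyCurve⁄Qb).Point).Finite := Set.toFinite _
  have hbot : ∀ σ : GQ, ∀ x ∈ (⊥ : AddSubgroup (P.freyCurve⁄Qb).Point),
      σ • x ∈ (⊥ : AddSubgroup (P.freyCurve⁄Qb).Point) := by
    intro σ x hx
    rw [AddSubgroup.mem_bot] at hx ⊢
    rw [hx, gsmul_zero]
  have htop : cofixer ⊥ (Tp P) hbot (Tp_stable P) = ⊤ := by
    refine Minkowski.eq_top_of_points P.freyCurve _ (Tp P : Set _) hTfin ?_ ?_
    · intro σ hσ g hg
      rw [hσ g hg, sub_self]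
      exact AddSubgroup.zero_mem _
    · intro q hq A hA σ hσ g hg
      rw [AddSubgroup.mem_bot, sub_eq_zero]
      by_cases hq2 : q = 2
      · subst hq2
        have huni : σ • (σ • g - g) = σ • g - g := frey_unipotent_two P hA hσ ((mem_Tp P).mp hg)
        by_contra hne
        apply hne
        refine hsc σ ⟨σ • g - g, sub_ne_zero.mpr hne, ?_, huni⟩ g ((mem_Tp P).mp hg)
        exact (mem_Tp P).mp ((Tp P).sub_mem (Tp_stable P σ g hg) hg)
      by_cases hqp : q = P.p
      · subst hqp
        obtain ⟨v, hv⟩ := exists_rval A hp hA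
        obtain ⟨g₀, hg₀, hg₀E⟩ := frey_exists_not_InE1 P hpabc hA hv
        let τ : Tp P →+ Tp P :=
          { toFun := fun x => ⟨σ • (x : (P.freyCurve⁄Qb).Point) - x,
              (Tp P).sub_mem (Tp_stable P σ x x.2) x.2⟩
            map_zero' := by
              apply Subtype.ext
              show σ • (0 : (P.freyCurve⁄Qb).Point) - 0 = 0
              rw [gsmul_zero, sub_zero]
            map_add' := by
              intro x y
              apply Subtype.ext
              show σ • ((x : (P.freyCurve⁄Qb).Point) + y) - (x + y) = (σ • x - x) + (σ • y - y)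
              rw [gsmul_add]
              abel }
        have hninj : ¬ Function.Injective τ := by
          intro hinj
          obtain ⟨x, hx⟩ := (Finite.injective_iff_surjective.mp hinj) ⟨g₀, (mem_Tp P).mpr hg₀⟩
          apply hg₀E
          have h1 := frey_sub_mem_E1 P hA hv hσ ((mem_Tp P).mp x.2)
          have h2 : σ • (x : (P.freyCurve⁄Qb).Point) - x = g₀ := congrArg Subtype.val hx
          have h3 : Point.map σ.toAlgHom (x : (P.freyCurve⁄Qb).Point) - x = g₀ := h2
          rwa [h3] at h1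
        rw [injective_iff_map_eq_zero] at hninj
        push Not at hninj
        obtain ⟨x, hx, hx0⟩ := hninj
        have h2 : σ • (x : (P.freyCurve⁄Qb).Point) - x = 0 := congrArg Subtype.val hx
        exact hsc σ ⟨x, fun h => hx0 (Subtype.ext h), (mem_Tp P).mp x.2, sub_eq_zero.mp h2⟩ g
          ((mem_Tp P).mp hg)
      · have := frey_unramified P hq hq2 hqp A hA σ hσ ⟨g, hg⟩
        exact congrArg Subtype.val this
  obtain ⟨Q, hQ⟩ := exists_ne (0 : Submodule.torsionBy ℤ (P.freyCurve⁄Qb).Point (P.p : ℤ))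
  have hQT : (Q : (P.freyCurve⁄Qb).Point) ∈ Tp P := Q.2
  refine no_fixed_torsion P Q (fun h => hQ (Subtype.ext h)) ((mem_Tp P).mp hQT) (fun σ => ?_)
  have : σ ∈ cofixer ⊥ (Tp P) hbot (Tp_stable P) := by
    rw [htop]; exact Subgroup.mem_top σ
  have h := this Q hQT
  rw [AddSubgroup.mem_bot] at h
  exact sub_eq_zero.mp h

end Fermat.Agent.S44.Top.Id
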