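import Fermat.Agent.S41.Eis.Grp

/-!
# S44 / TOP-ID : abstract group theory (the eigenvalue-1 trick)      (helper25)

`lemmaA` : `ρ` irreducible of dimension 2, `H` normal, every `h ∈ H` has a nonzero fixed vector ⟹ `H` acts trivially.
`ker_le`, `ker_ge` : comparison of kernels of two representations.
`trivial_of_hasFix_of_reducible` : if `ρ₁` is reducible, then every `g` with a nonzero fixed vector in `V₂` acts trivially on `V₂`.
-/

set_option autoImplicit false

namespace Fermat.Agent.S44.Top.Id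

variable {k V Γ : Type*} [Field k] [AddCommGroup V] [Module k V] [Group Γ]

/-- irreducibility -/
def Irr (ρ : Γ →* Module.End k V) : Prop :=
  ∀ W : Submodule k V, (∀ g, ∀ x ∈ W, ρ g x ∈ W) → W = ⊥ ∨ W = ⊤

/-- `g` has a nonzero fixed vector -/
def HasFix (ρ : Γ →* Module.End k V) (g : Γ) : Prop := ∃ v : V, v ≠ 0 ∧ ρ g v = v

theorem rho_inv_apply (ρ : Γ →* Module.End k V) (g : Γ) (x : V) : ρ g⁻¹ (ρ g x) = x := by
  rw [← Module.End.mul_apply, ← map_mul, inv_mul_cancel, map_one, Module.End.one_apply]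

theorem rho_apply_inv (ρ : Γ →* Module.End k V) (g : Γ) (x : V) : ρ g (ρ g⁻¹ x) = x := by
  rw [← Module.End.mul_apply, ← map_mul, mul_inv_cancel, map_one, Module.End.one_apply]

theorem span_ne_top (h2 : Module.finrank k V = 2) (v : V) : Submodule.span k {v} ≠ ⊤ := by
  intro h
  have h1 := finrank_span_le_card (R := k) ({v} : Set V)
  rw [h, finrank_top, h2] at h1
  simp at h1

theorem exists_ne_zero (h2 : Module.finrank k V = 2) : ∃ v : V, v ≠ 0 := by
  have : Nontrivial V := Module.nontrivial_of_finrank_pos (R := k) (by rw [h2]; norm_num)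
  exact exists_ne 0

/-- a fixed vector and an eigenvector -/
theorem fix_or_sub_mem (h2 : Module.finrank k V = 2) (f : Module.End k V) {v w : V} (hv : v ≠ 0)
    {c : k} (hc : f v = c • v) (hw : w ≠ 0) (hfw : f w = w) :
    f v = v ∨ ∀ x, f x - x ∈ Submodule.span k {v} := by
  by_cases hwv : ∃ a : k, w = a • v
  · left
    obtain ⟨a, rfl⟩ := hwv
    have ha : a ≠ 0 := by
      rintro rfl
      exact hw (zero_smul _ _)
    rw [map_smul] at hfw
    exact smul_right_injective V ha hfw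
  · right
    push Not at hwv
    obtain ⟨b, hb0, hb1⟩ := S41.Eis.grpAux_basis h2 v w hv hwv
    intro x
    have hx := b.sum_repr x
    rw [Fin.sum_univ_two, hb0, hb1] at hx
    rw [← hx, map_add, map_smul, map_smul, hc, hfw]
    refine Submodule.mem_span_singleton.mpr ⟨b.repr x 0 * (c - 1), ?_⟩
    rw [smul_smul, mul_sub, sub_smul, mul_one]
    abel

/-- **Lemma A** -/
theorem lemmaA (h2 : Module.finrank k V = 2) (ρ : Γ →* Module.End k V) (hirr : Irr ρ)
    (H : Subgroup Γ) [hn : H.Normal] (hfix : ∀ h ∈ H, HasFix ρ h) : ∀ h ∈ H, ρ h = 1 := by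
  classical
  -- the invariants
  let W1 : Submodule k V :=
    { carrier := {v | ∀ h ∈ H, ρ h v = v}
      zero_mem' := fun h _ => map_zero _
      add_mem' := fun {a b} ha hb h hh => by rw [map_add, ha h hh, hb h hh]
      smul_mem' := fun c a ha h hh => by rw [map_smul, ha h hh] }
  have hW1 : ∀ g, ∀ x ∈ W1, ρ g x ∈ W1 := by
    intro g x hx h hh
    have h1 : g⁻¹ * h * g ∈ H := by
      have := hn.conj_mem h hh g⁻¹
      rwa [inv_inv] at this
    have h3 : h * g = g * (g⁻¹ * h * g) := by group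
    rw [← Module.End.mul_apply, ← map_mul, h3, map_mul, Module.End.mul_apply, hx _ h1]
  -- the augmentation
  let W2 : Submodule k V := Submodule.span k {y | ∃ h ∈ H, ∃ x, y = ρ h x - x}
  have hW2 : ∀ g, ∀ x ∈ W2, ρ g x ∈ W2 := by
    intro g x hx
    induction hx using Submodule.span_induction with
    | mem y hy =>
      obtain ⟨h, hh, z, rfl⟩ := hy
      apply Submodule.subset_span
      refine ⟨g * h * g⁻¹, hn.conj_mem h hh g, ρ g z, ?_⟩
      rw [map_sub, map_mul, map_mul, Module.End.mul_apply, Module.End.mul_apply, rho_inv_apply]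
    | zero => rw [map_zero]; exact Submodule.zero_mem _
    | add a b _ _ ha hb => rw [map_add]; exact Submodule.add_mem _ ha hb
    | smul c a _ ha => rw [map_smul]; exact Submodule.smul_mem _ _ ha
  rcases hirr W1 hW1 with h1 | h1
  swap
  · intro h hh
    ext v
    have : v ∈ W1 := by rw [h1]; trivial
    exact this h hh
  rcases hirr W2 hW2 with h3 | h3
  · intro h hh
    ext v
    have : ρ h v - v ∈ W2 := Submodule.subset_span ⟨h, hh, v, rfl⟩
    rw [h3, Submodule.mem_bot, sub_eq_zero] at this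
    exact this
  exfalso
  obtain ⟨v, hv0, hv⟩ := S41.Eis.exists_common_eigenvector h2 (ρ.comp H.subtype)
    (fun g => hfix g g.2)
  have hor : ∀ h ∈ H, ρ h v = v ∨ ∀ x, ρ h x - x ∈ Submodule.span k {v} := by
    intro h hh
    obtain ⟨c, hc⟩ := hv ⟨h, hh⟩
    obtain ⟨w, hw, hfw⟩ := hfix h hh
    exact fix_or_sub_mem h2 (ρ h) hv0 hc hw hfw
  by_cases hA : ∀ h ∈ H, ρ h v = v
  · have : v ∈ W1 := hA
    rw [h1, Submodule.mem_bot] at this
    exact hv0 this
  by_cases hB : ∀ h ∈ H, ∀ x, ρ h x - x ∈ Submodule.span k {v}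
  · apply span_ne_top h2 v
    rw [eq_top_iff, ← h3]
    apply Submodule.span_le.mpr
    rintro y ⟨h, hh, x, rfl⟩
    exact hB h hh x
  push Not at hA hB
  obtain ⟨a, haH, ha⟩ := hA
  obtain ⟨b, hbH, x₀, hb⟩ := hB
  have haB := (hor a haH).resolve_left ha
  have hbA : ρ b v = v := by
    rcases hor b hbH with h | h
    · exact h
    · exact absurd (h x₀) hb
  rcases hor (a * b) (H.mul_mem haH hbH) with h | h
  · rw [map_mul, Module.End.mul_apply, hbA] at h
    exact ha h
  · apply hb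
    have h4 := h x₀
    rw [map_mul, Module.End.mul_apply] at h4
    have h5 := haB (ρ b x₀)
    have : ρ b x₀ - x₀ = (ρ a (ρ b x₀) - x₀) - (ρ a (ρ b x₀) - ρ b x₀) := by abel
    rw [this]
    exact Submodule.sub_mem _ h4 h5

section two

variable {k₂ V₂ : Type*} [Field k₂] [AddCommGroup V₂] [Module k₂ V₂]

/-- (a) / (c) -/
theorem ker_le (hV : Module.finrank k₂ V₂ = 2) (ρ₁ : Γ →* Module.End k V)
    (ρ₂ : Γ →* Module.End k₂ V₂) (hirr : Irr ρ₂) (hEV : ∀ g, ρ₁ g = 1 → HasFix ρ₂ g) (g : Γ)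
    (hg : ρ₁ g = 1) : ρ₂ g = 1 :=
  lemmaA hV ρ₂ hirr ρ₁.ker (fun h hh => hEV h (MonoidHom.mem_ker.mp hh)) g (MonoidHom.mem_ker.mpr hg)

/-- (b) the reducible scenario -/
theorem trivial_of_hasFix_of_reducible (h2 : Module.finrank k V = 2)
    (hV : Module.finrank k₂ V₂ = 2) (ρ₁ : Γ →* Module.End k V) (ρ₂ : Γ →* Module.End k₂ V₂)
    (hirr : Irr ρ₂) (hEV : ∀ g, HasFix ρ₁ g → HasFix ρ₂ g) (hred : ¬ Irr ρ₁) (g : Γ)
    (hg : HasFix ρ₂ g) : ρ₂ g = 1 := by
  classical
  rw [Irr] at hred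
  push Not at hred
  obtain ⟨W, hW, hWb, hWt⟩ := hred
  obtain ⟨v, hvW, hv0⟩ := (Submodule.ne_bot_iff W).mp hWb
  have hfd : Module.Finite k V := Module.finite_of_finrank_pos (by rw [h2]; norm_num)
  -- `W` is the line spanned by `v`
  have hWv : ∀ x ∈ W, ∃ c : k, x = c • v := by
    intro x hx
    by_contra hcon
    push Not at hcon
    obtain ⟨b, hb0, hb1⟩ := S41.Eis.grpAux_basis h2 v x hv0 hcon
    apply hWt
    rw [eq_top_iff]
    intro y _
    have hy := b.sum_repr y
    rw [Fin.sum_univ_two, hb0, hb1] at hy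
    rw [← hy]
    exact W.add_mem (W.smul_mem _ hvW) (W.smul_mem _ hx)
  have hc : ∀ g, ∃ c : k, ρ₁ g v = c • v := fun g => hWv _ (hW g v hvW)
  choose c hc using hc
  have hcmul : ∀ g h, c (g * h) = c g * c h := by
    intro g h
    have h1 : ρ₁ (g * h) v = (c g * c h) • v := by
      rw [map_mul, Module.End.mul_apply, hc h, map_smul, hc g, smul_smul, mul_comm]
    rw [hc] at h1
    exact smul_left_injective k hv0 h1
  have hc1 : c 1 = 1 := by
    have h1 : ρ₁ 1 v = (1 : k) • v := by rw [map_one, Module.End.one_apply, one_smul]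
    rw [hc] at h1
    exact smul_left_injective k hv0 h1
  let χ : Γ →* k := ⟨⟨c, hc1⟩, hcmul⟩
  have hker : ∀ h ∈ χ.ker, ρ₂ h = 1 := by
    apply lemmaA hV ρ₂ hirr χ.ker
    intro h hh
    apply hEV
    refine ⟨v, hv0, ?_⟩
    have : c h = 1 := MonoidHom.mem_ker.mp hh
    rw [hc, this, one_smul]
  -- the image of `ρ₂` is commutative
  have hcomm : ∀ a b : Γ, ρ₂ a * ρ₂ b = ρ₂ b * ρ₂ a := by
    intro a b
    have h1 : a * b * a⁻¹ * b⁻¹ ∈ χ.ker := by
      rw [MonoidHom.mem_ker]
      have ha : χ a * χ a⁻¹ = 1 := by rw [← map_mul, mul_inv_cancel, map_one]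
      have hb : χ b * χ b⁻¹ = 1 := by rw [← map_mul, mul_inv_cancel, map_one]
      rw [map_mul, map_mul, map_mul]
      calc χ a * χ b * χ a⁻¹ * χ b⁻¹ = (χ a * χ a⁻¹) * (χ b * χ b⁻¹) := by ring
        _ = 1 := by rw [ha, hb, one_mul]
    have h3 := hker _ h1
    have h4 : a * b = (a * b * a⁻¹ * b⁻¹) * (b * a) := by group
    rw [← map_mul, h4, map_mul, h3, one_mul, map_mul]
  -- Schur
  let W' : Submodule k₂ V₂ := LinearMap.ker (ρ₂ g - 1)
  have hmem : ∀ x, x ∈ W' ↔ ρ₂ g x = x := by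
    intro x
    rw [LinearMap.mem_ker, LinearMap.sub_apply, Module.End.one_apply, sub_eq_zero]
  have hW' : ∀ a, ∀ x ∈ W', ρ₂ a x ∈ W' := by
    intro a x hx
    rw [hmem] at hx ⊢
    rw [← Module.End.mul_apply, hcomm, Module.End.mul_apply, hx]
  obtain ⟨w, hw0, hw⟩ := hg
  rcases hirr W' hW' with h | h
  · exfalso
    have : w ∈ W' := (hmem w).mpr hw
    rw [h, Submodule.mem_bot] at this
    exact hw0 this
  · ext x
    have : x ∈ W' := by rw [h]; trivial
    exact (hmem x).mp this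

end two

end Fermat.Agent.S44.Top.Id
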