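import Fermat.Agent.S44.Top.Id.EV
import Fermat.Agent.S44.Top.Id.Frey

/-!
# S44 / TOP-ID : `ρ_f` is irreducible and `ker ρ_f = ker ρ_{E,p}`, without the trace of Frobenius on `E[p]`      (helper25)
-/

set_option autoImplicit false

open Polynomial WeierstrassCurve WeierstrassCurve.Affine WeierstrassCurve.Affine.Point

namespace Fermat.Agent.S44.Top.Id

local notation "Qbar" => AlgebraicClosure ℚ
local notation "GQ" => (AlgebraicClosure ℚ ≃ₐ[ℚ] AlgebraicClosure ℚ)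

/-- (EV) for an odd prime `p` -/
theorem ev' (W : WeierstrassCurve ℤ) (hΔ : W.Δ ≠ 0) {p : ℕ} [hF : Fact p.Prime] (hp2 : p ≠ 2)
    {N : ℕ} (hN : N ≠ 0) {f : CuspForm (CongruenceSubgroup.Gamma0 N) 2} {k : Type} [Field k]
    [CharP k p] (φ : integralClosure ℤ ℂ →+* k)
    (hcong : ∀ ℓ : ℕ, ℓ.Prime → W.IsGoodPrimeFor ℓ → ¬ ℓ ∣ N → ℓ ≠ p →
      ∃ a : integralClosure ℤ ℂ, (a : ℂ) = ModularFormClass.qCoeff f ℓ ∧
        φ a = ((W.apOfModel ℓ : ℤ) : k))
    (ρ : ResidualGaloisRep k) (hatt : ρ.IsAttachedTo f φ) (σ : GQ) :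
    HasFix ρ.ρ σ ↔ HasFix (galoisRepModuleEnd (S := ℚ) (K := Qbar)
      (W.map (Int.castRingHom ℚ)).toAffine p) σ := by
  obtain ⟨b, rfl⟩ : Odd p := hF.out.odd_of_ne_two hp2
  exact ev W hΔ hN φ hcong ρ hatt σ

/-- the dimension of the `p`-torsion -/
theorem finrank_torsion (E : WeierstrassCurve ℚ) (hΔ : E.Δ ≠ 0) {p : ℕ} [hF : Fact p.Prime]
    (hp2 : p ≠ 2) :
    Module.finrank (ZMod p) (Submodule.torsionBy ℤ (E.toAffine⁄Qbar).Point (p : ℤ)) = 2 := by
  classical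
  have hp := hF.out
  have hodd : Odd p := hp.odd_of_ne_two hp2
  have hΔK : (E.toAffine⁄Qbar).Δ ≠ 0 := by
    show (E.map (algebraMap ℚ Qbar)).Δ ≠ 0
    rw [map_Δ]
    exact (_root_.map_ne_zero _).mpr hΔ
  have hpK : ((p : ℕ) : Qbar) ≠ 0 := by exact_mod_cast hp.ne_zero
  have hcard := S41.Eis.card_torsionBy (E.toAffine⁄Qbar) hΔK hodd hpK
  have hfinV : Finite (Submodule.torsionBy ℤ (E.toAffine⁄Qbar).Point (p : ℤ)) :=
    (DivPoly.torsionBy_finite (E.toAffine⁄Qbar) hodd hpK).1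
  have hmf : Module.Finite (ZMod p) (Submodule.torsionBy ℤ (E.toAffine⁄Qbar).Point (p : ℤ)) :=
    Module.Finite.of_finite
  have h := Module.natCard_eq_pow_finrank (K := ZMod p)
    (V := Submodule.torsionBy ℤ (E.toAffine⁄Qbar).Point (p : ℤ))
  rw [Nat.card_zmod, hcard] at h
  exact (Nat.pow_right_injective hp.two_le h).symm

/-- an equivariant isomorphism for a change of variables -/
theorem exists_equivariant (E : WeierstrassCurve ℚ) (C : VariableChange ℚ) :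
    ∃ e : ((C • E).toAffine⁄Qbar).Point ≃+ (E.toAffine⁄Qbar).Point,
      ∀ (σ : GQ) (P : ((C • E).toAffine⁄Qbar).Point), e (σ • P) = σ • e P := by
  obtain ⟨e, he⟩ : ∃ e : ((C • E).toAffine⁄(AlgebraicClosure ℚ)).Point ≃+
        (E.toAffine⁄(AlgebraicClosure ℚ)).Point,
      ∀ (x y : AlgebraicClosure ℚ) (h : ((C • E).toAffine⁄(AlgebraicClosure ℚ)).Nonsingular x y),
        ∃ h' : (E.toAffine⁄(AlgebraicClosure ℚ)).Nonsingular
            ((algebraMap ℚ (AlgebraicClosure ℚ) C.u) ^ 2 * x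
              + algebraMap ℚ (AlgebraicClosure ℚ) C.r)
            ((algebraMap ℚ (AlgebraicClosure ℚ) C.u) ^ 3 * y
              + (algebraMap ℚ (AlgebraicClosure ℚ) C.u) ^ 2
                * algebraMap ℚ (AlgebraicClosure ℚ) C.s * x
              + algebraMap ℚ (AlgebraicClosure ℚ) C.t),
          e (Point.some x y h) = Point.some _ _ h' :=
    S41.Eis.exists_vcEquiv' (E.map (algebraMap ℚ (AlgebraicClosure ℚ)))
      ((C • E).map (algebraMap ℚ (AlgebraicClosure ℚ)))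
      (C.map (algebraMap ℚ (AlgebraicClosure ℚ)))
      (map_variableChange E C (algebraMap ℚ (AlgebraicClosure ℚ))).symm
  refine ⟨e, ?_⟩
  intro σ P
  rcases P with _ | ⟨x, y, hxy⟩
  · have h0 : (Point.zero : ((C • E).toAffine⁄(AlgebraicClosure ℚ)).Point) = 0 := rfl
    have z1 : σ • (0 : ((C • E).toAffine⁄(AlgebraicClosure ℚ)).Point) = 0 := rfl
    have z2 : σ • (0 : (E.toAffine⁄(AlgebraicClosure ℚ)).Point) = 0 := rfl
    rw [h0, z1, _root_.map_zero, z2]
  · obtain ⟨h1, e1⟩ := he x y hxy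
    obtain ⟨h2, e2⟩ := S41.Eis.vcAux_smul_some (C • E) σ x y hxy
    obtain ⟨h3, e3⟩ := he _ _ h2
    obtain ⟨h4, e4⟩ := S41.Eis.vcAux_smul_some E σ _ _ h1
    rw [e2, e3, e1, e4, Point.some.injEq]
    have hc : ∀ q : ℚ, σ (algebraMap ℚ (AlgebraicClosure ℚ) q)
        = algebraMap ℚ (AlgebraicClosure ℚ) q := fun q => σ.commutes q
    constructor
    · simp only [map_add, map_mul, map_pow, hc]
    · simp only [map_add, map_mul, map_pow, hc]

section dict

variable (E : WeierstrassCurve ℚ) (p : ℕ) [Fact p.Prime]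

theorem hasFix_torsion_iff (σ : GQ) :
    HasFix (galoisRepModuleEnd (S := ℚ) (K := Qbar) E.toAffine p) σ ↔
      ∃ g : (E.toAffine⁄Qbar).Point, g ≠ 0 ∧ p • g = 0 ∧ σ • g = g := by
  constructor
  · rintro ⟨v, hv0, hv⟩
    refine ⟨v, fun h => hv0 (Subtype.ext h), ?_, congrArg Subtype.val hv⟩
    have := v.2
    rwa [Submodule.mem_torsionBy_iff, natCast_zsmul] at this
  · rintro ⟨g, hg0, hgp, hg⟩
    refine ⟨⟨g, ?_⟩, fun h => hg0 (congrArg Subtype.val h), Subtype.ext hg⟩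
    rwa [Submodule.mem_torsionBy_iff, natCast_zsmul]

theorem torsion_eq_one_iff (σ : GQ) :
    galoisRepModuleEnd (S := ℚ) (K := Qbar) E.toAffine p σ = 1 ↔
      ∀ g : (E.toAffine⁄Qbar).Point, p • g = 0 → σ • g = g := by
  constructor
  · intro h g hg
    have h1 := LinearMap.congr_fun h (⟨g, by rwa [Submodule.mem_torsionBy_iff, natCast_zsmul]⟩ :
      Submodule.torsionBy ℤ (E.toAffine⁄Qbar).Point (p : ℤ))
    exact congrArg Subtype.val h1
  · intro h
    ext v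
    have := v.2
    rw [Submodule.mem_torsionBy_iff, natCast_zsmul] at this
    exact h v this

end dict

theorem hasFix_of_eq_one {k V Γ : Type*} [Field k] [AddCommGroup V] [Module k V] [Group Γ]
    (h2 : Module.finrank k V = 2) (ρ : Γ →* Module.End k V) {g : Γ} (h : ρ g = 1) :
    HasFix ρ g := by
  obtain ⟨v, hv⟩ := exists_ne_zero h2
  exact ⟨v, hv, by rw [h, Module.End.one_apply]⟩

/-- **[S44/TOP-ID]** -/
theorem top_id (P : FreyPackage) (hpabc : (P.p : ℤ) ∣ P.a * P.b * P.c)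
    (hirr : GaloisRepIsIrreducible (K := AlgebraicClosure ℚ) ℚ P.freyCurve P.p)
    {W : WeierstrassCurve ℤ} (hW : W.IsIntegralModelOf P.freyCurve)
    {N : ℕ} (hN : N ≠ 0) {f : CuspForm (CongruenceSubgroup.Gamma0 N) 2}
    {k : Type} [Field k] [CharP k P.p] (φ : integralClosure ℤ ℂ →+* k)
    (hcong : ∀ ℓ : ℕ, ℓ.Prime → W.IsGoodPrimeFor ℓ → ¬ ℓ ∣ N → ℓ ≠ P.p →
      ∃ a : integralClosure ℤ ℂ, (a : ℂ) = ModularFormClass.qCoeff f ℓ ∧
        φ a = ((W.apOfModel ℓ : ℤ) : k))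
    (ρ : ResidualGaloisRep k) (hatt : ρ.IsAttachedTo f φ) :
    ρ.IsIrreducible ∧ ∀ σ : GQ, ρ.ρ σ = 1 ↔
      ∀ g : (P.freyCurve⁄Qbar).Point, P.p • g = 0 → σ • g = g := by
  classical
  have hF : Fact P.p.Prime := ⟨P.pp⟩
  have hp2 : P.p ≠ 2 := by have := P.hp5; omega
  obtain ⟨C, hC⟩ := hW
  have hirr' : GaloisRepIsIrreducible (K := AlgebraicClosure ℚ) ℚ
      (W.map (Int.castRingHom ℚ)) P.p := by
    rw [← hC]
    exact S41.Eis.irreducible_variableChange P.freyCurve C P.p hirr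
  have hΔE : P.freyCurve.Δ ≠ 0 := by
    intro h
    apply S13.frey_Δ_ne_zero P
    show (P.freyCurve.map (algebraMap ℚ Qbar)).Δ = 0
    rw [map_Δ, h, _root_.map_zero]
  have hΔQ : (W.map (Int.castRingHom ℚ)).Δ ≠ 0 := by
    rw [← hC, variableChange_Δ]
    exact mul_ne_zero (pow_ne_zero _ (Units.ne_zero _)) hΔE
  have hΔ : W.Δ ≠ 0 := by
    intro h
    apply hΔQ
    rw [map_Δ, h, _root_.map_zero]
  have h2 := finrank_torsion (W.map (Int.castRingHom ℚ)) hΔQ (p := P.p) hp2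
  set ρ₂ := galoisRepModuleEnd (S := ℚ) (K := Qbar) (W.map (Int.castRingHom ℚ)).toAffine P.p
    with hρ₂
  have hirr₂ : Irr ρ₂ := fun N' hN' => hirr'.2 N' hN'
  have hEV := ev' W hΔ hp2 hN φ hcong ρ hatt
  -- the dictionary between the two models
  obtain ⟨e, he⟩ : ∃ e : ((W.map (Int.castRingHom ℚ)).toAffine⁄Qbar).Point ≃+
      (P.freyCurve.toAffine⁄Qbar).Point,
      ∀ (σ : GQ) (Q : ((W.map (Int.castRingHom ℚ)).toAffine⁄Qbar).Point),
        e (σ • Q) = σ • e Q := by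
    rw [← hC]
    exact exists_equivariant P.freyCurve C
  have htriv : ∀ σ : GQ, ρ₂ σ = 1 ↔
      ∀ g : (P.freyCurve⁄Qbar).Point, P.p • g = 0 → σ • g = g := by
    intro σ
    rw [hρ₂, torsion_eq_one_iff]
    constructor
    · intro h g hg
      have h1 := h (e.symm g) (by
        apply e.injective
        rw [map_nsmul, e.apply_symm_apply, hg, _root_.map_zero])
      have h3 := congrArg e h1
      rwa [he, e.apply_symm_apply] at h3
    · intro h g hg
      apply e.injective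
      rw [he]
      exact h (e g) (by rw [← map_nsmul, hg, _root_.map_zero])
  have hfixE : ∀ σ : GQ, (∃ g : (P.freyCurve⁄Qbar).Point, g ≠ 0 ∧ P.p • g = 0 ∧ σ • g = g) →
      HasFix ρ₂ σ := by
    rintro σ ⟨g, hg0, hgp, hg⟩
    rw [hρ₂, hasFix_torsion_iff]
    refine ⟨e.symm g, ?_, ?_, ?_⟩
    · intro h
      apply hg0
      rw [← e.apply_symm_apply g, h, _root_.map_zero]
    · apply e.injective
      rw [map_nsmul, e.apply_symm_apply, hgp, _root_.map_zero]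
    · apply e.injective
      rw [he, e.apply_symm_apply, hg]
  have hirr₁ : Irr ρ.ρ := by
    by_contra hred
    apply frey_not_scenario P hpabc
    intro σ hσ
    exact (htriv σ).mp (trivial_of_hasFix_of_reducible ρ.finrank_eq h2 ρ.ρ ρ₂ hirr₂
      (fun g => (hEV g).mp) hred σ (hfixE σ hσ))
  refine ⟨hirr₁, fun σ => ?_⟩
  rw [← htriv]
  constructor
  · exact ker_le h2 ρ.ρ ρ₂ hirr₂ (fun g hg => (hEV g).mp (hasFix_of_eq_one ρ.finrank_eq ρ.ρ hg)) σ
  · exact ker_le ρ.finrank_eq ρ₂ ρ.ρ hirr₁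
      (fun g hg => (hEV g).mpr (hasFix_of_eq_one h2 ρ₂ hg)) σ

end Fermat.Agent.S44.Top.Id
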