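import Fermat.Agent.S13.Main
import Fermat.Agent.S44.E.Node0

/-!
# S44 / TOP-ID-NOTE1 : for `p ∣ abc` not all the `p`-torsion of the Frey curve lies in the kernel of reduction      key `S44/TOP-ID-NOTE1`

Specialisation of `Fermat.Agent.S44.E.exists_not_InE1` (origin at the node mod `p`) to the Frey curve, followed by the change of
origin `Dc → D0` when `p ∣ c`.
-/

set_option autoImplicit false

namespace Fermat.Agent.S44.Top.Id

open Fermat.Agent.S05 Fermat.Agent.S13 Fermat.Agent.DivPoly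
open WeierstrassCurve WeierstrassCurve.Affine WeierstrassCurve.Affine.Point

local notation "Qb" => AlgebraicClosure ℚ
local notation "GQ" => (AlgebraicClosure ℚ ≃ₐ[ℚ] AlgebraicClosure ℚ)

/-- change of origin, converse of `InE1_D0_of_Dc` -/
lemma notE1_Dc_of_D0 (P : FreyPackage) {v : RVal Qb} (he : v.GE ((P.a : Qb) ^ P.p / 4) 0)
    {g : (P.freyCurve⁄Qb).Point} (h : InE1 (D0 P) v g) : InE1 (Dc P) v g := by
  rcases g with _ | ⟨x, y, hxy⟩
  · exact InE1.zero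
  · intro x' hx'
    rw [Dc_ξ_some] at hx'
    obtain rfl := Option.some.inj hx'
    obtain ⟨h1, h2⟩ := h _ (D0_ξ_some P hxy)
    have h3 := (RVal.EQ_self (v := v) h1).add_GT (he.neg.GT h2)
    rw [← sub_eq_add_neg] at h3
    exact ⟨h3.1, by rw [h3.2]; exact h2⟩

theorem notE1_aux (P : FreyPackage) {A : ValuationSubring Qb} (hA : A.LiesOverPrime P.p)
    {v : RVal Qb} (hv : ∀ x : Qb, x ≠ 0 → (0 ≤ v.w x ↔ x ∈ A)) {e : Qb}
    (he : 4 * e ^ 3 + (P.freyCurve⁄Qb).b₂ * e ^ 2 + 2 * (P.freyCurve⁄Qb).b₄ * e +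
      (P.freyCurve⁄Qb).b₆ = 0)
    (hei : v.GE e 0) {c : ℤ} (hc0 : c ≠ 0) (hpc : (P.p : ℤ) ∣ c)
    (hβ : v.EQ (kummerOf (P.freyCurve⁄Qb) e two_ne he).β 0)
    (hκ : v.EQ (kummerOf (P.freyCurve⁄Qb) e two_ne he).κ (P.p * v.w (c : Qb))) :
    ∃ g : (P.freyCurve⁄Qb).Point, P.p • g = 0 ∧
      ¬ InE1 (kummerOf (P.freyCurve⁄Qb) e two_ne he) v g := by
  classical
  have hq := P.pp
  obtain ⟨b, hb⟩ := P.hp_odd
  have hpK : ((P.p : ℕ) : Qb) ≠ 0 := by exact_mod_cast P.hp0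
  have hpK' : (2 * (b : Qb) + 1) ≠ 0 := by
    have := hpK
    rw [hb] at this
    push_cast at this
    exact this
  have hpv : v.GT ((P.p : ℕ) : Qb) 0 := Or.inr (w_prime_pos hq hA hv)
  have hcpos : 0 < v.w (c : Qb) := rval_int_pos hq hA hv hc0 hpc
  have hh : 0 < (P.p : ℝ) * v.w (c : Qb) := by
    have : (0 : ℝ) < P.p := by exact_mod_cast P.hppos
    positivity
  have hb₂ : v.GE (P.freyCurve⁄Qb).b₂ 0 := by
    rw [frey_b₂]
    exact ((RVal.GE_intCast P.b).pow P.p |>.mono (by simp)).sub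
      ((RVal.GE_intCast P.a).pow P.p |>.mono (by simp))
  have hb₄ : v.GE (P.freyCurve⁄Qb).b₄ 0 := by
    have : (P.freyCurve⁄Qb).b₄ = 2 * (D0 P).κ := by
      rw [D0_κ, frey_b₄]; push_cast; rw [mul_pow]; ring
    rw [this, D0_κ_int]
    exact (RVal.GE_intCast _).two_mul
  have hnot : ∃ g : (P.freyCurve⁄Qb).Point, (2 * b + 1) • g = 0 ∧
      ¬ InE1 (kummerOf (P.freyCurve⁄Qb) e two_ne he) v g :=
    Fermat.Agent.S44.E.exists_not_InE1 (P.freyCurve⁄Qb) e two_ne he v (hb ▸ hq) hpK' (hb ▸ hpv)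
      (frey_Δ_ne_zero P) hb₂ hb₄ hei hβ (hκ.GT hh)
  rw [hb]
  exact hnot

/-- [S44/TOP-ID-NOTE1] -/
theorem frey_exists_not_InE1 (P : FreyPackage) (hpabc : (P.p : ℤ) ∣ P.a * P.b * P.c)
    {A : ValuationSubring Qb} (hA : A.LiesOverPrime P.p) {v : RVal Qb}
    (hv : ∀ x : Qb, x ≠ 0 → (0 ≤ v.w x ↔ x ∈ A)) :
    ∃ g : (P.freyCurve⁄Qb).Point, P.p • g = 0 ∧ ¬ InE1 (D0 P) v g := by
  have hq := P.pp
  have hqZ : Prime (P.p : ℤ) := Nat.prime_iff_prime_int.mp hq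
  have unit : ∀ n : ℤ, ¬ (P.p : ℤ) ∣ n → v.EQ (n : Qb) 0 := fun n hn => rval_int_unit hq hA hv hn
  have hq2' : ¬ (P.p : ℤ) ∣ 2 := by
    intro h
    have h' : P.p ∣ 2 := by exact_mod_cast h
    have := (Nat.prime_dvd_prime_iff_eq hq Nat.prime_two).mp h'
    have := P.hp5
    omega
  have h2 : v.EQ (2 : Qb) 0 := by
    have := unit 2 hq2'
    simpa using this
  have h4 : v.EQ (4 : Qb) 0 := by
    have := (h2.pow 2).of_eq (b := 0) (by ring)
    norm_num at this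
    exact this
  have h16 : v.EQ (16 : Qb) 0 := by
    have := (h2.pow 4).of_eq (b := 0) (by ring)
    norm_num at this
    exact this
  have hab := isCoprime_of_gcd P.hgcdab
  have hac := isCoprime_of_gcd P.hgcdac
  have hp0 := P.hp0
  by_cases hc : (P.p : ℤ) ∣ P.c
  · have hei : v.GE ((P.a : Qb) ^ P.p / 4) 0 :=
      ((((RVal.GE_intCast P.a).pow P.p).mul (h4.inv.GE le_rfl)).mono (by simp))
    have hβ : v.EQ (Dc P).β 0 := by
      rw [Dc_β]; exact unit _ (not_dvd_pow_add hqZ hac hc hp0)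
    have hne : ((P.a * P.c : ℤ) : Qb) ≠ 0 := by exact_mod_cast mul_ne_zero P.ha0 P.hc0
    have hκ : v.EQ (Dc P).κ (P.p * v.w ((P.a * P.c : ℤ) : Qb)) := by
      rw [Dc_κ]
      exact (((RVal.EQ_self hne).pow P.p).div h16).of_eq (by ring)
    obtain ⟨g, hg, hn⟩ := notE1_aux P hA hv (hec P) hei
      (mul_ne_zero P.ha0 P.hc0) (Dvd.dvd.mul_left hc _) hβ hκ
    exact ⟨g, hg, fun h => hn (notE1_Dc_of_D0 P hei h)⟩
  · have hdvd : (P.p : ℤ) ∣ P.a * P.b := (hqZ.dvd_or_dvd hpabc).resolve_right hc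
    have hne : ((P.a * P.b : ℤ) : Qb) ≠ 0 := by exact_mod_cast mul_ne_zero P.ha0 P.hb0
    have hβ : v.EQ (D0 P).β 0 := by
      rw [D0_β]
      rcases hqZ.dvd_or_dvd hdvd with h | h
      · exact unit _ (not_dvd_pow_sub hqZ hab h hp0)
      · exact unit _ (not_dvd_pow_sub' hqZ hab h hp0)
    have hκ : v.EQ (D0 P).κ (P.p * v.w ((P.a * P.b : ℤ) : Qb)) := by
      rw [D0_κ]
      exact (((RVal.EQ_self hne).pow P.p).div h16).neg.of_eq (by ring)
    exact notE1_aux P hA hv (he0 P) (RVal.GE_zero 0)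
      (mul_ne_zero P.ha0 P.hb0) hdvd hβ hκ

end Fermat.Agent.S44.Top.Id
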